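import Mathlib
import Fermat.Agent.S36.KInst9.Base
import Fermat.Agent.S36.SqChart.HypE
import Fermat.Agent.S36.ECall.Red
import Fermat.Agent.S36.ECall.H0
import Fermat.Agent.S36.ECall.ObjInf
import Fermat.Agent.S36.SqChart.RadE
import Fermat.Agent.S36.SqChart.HypMult
import Fermat.Agent.S36.EpsHypE

/-!
S36 tail, `q` odd (helper218): the chart-prime assembly.
`KInst9.holds_of_chart` at the `HypE` objects with every landed producer plugged in.
-/

set_option autoImplicit false
set_option linter.unusedSectionVars false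
set_option linter.unusedVariables false
set_option linter.style.haveILetI false
set_option synthInstance.maxHeartbeats 400000
set_option maxHeartbeats 1000000

open ModularCurve Polynomial IntermediateField

noncomputable section

namespace Fermat.Agent.S36.KInst4H.Harness

open Fermat.Agent.S30 Fermat.Agent.S30.CSide Fermat.Agent.S30.Model
open Fermat.Agent.S18.K1Defs Fermat.Agent.S18.K1Main
open Fermat.Agent.S34 Fermat.Agent.S34.TwoPrimesGauss Fermat.Agent.S34.TwoPrimesRank
open Fermat.Agent.S34.HauptU.Plug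
open Fermat.Agent.S36 Fermat.Agent.S36.SqChart Fermat.Agent.S36.MultPrimesGauss Fermat.Agent.S36.CycloBase
open Fermat.Agent.S36.SqRankE Fermat.Agent.S36.SqChart.InstA
open Fermat.Agent.S36.PrinAt
open Fermat.Agent.S36.NormEPack (NaE NbE)

local notation "Qb" => AlgebraicClosure ℚ

attribute [local instance] InstA.algL InstA.towerL

variable (A : ValuationSubring Qb) {q : ℕ} (hq : q.Prime) [NeZero q] (hA : A.LiesOverPrime q)
  (K : IntermediateField ℚ Qb) [FiniteDimensional ℚ K]
  (hK : A.inertiaSubgroupIn ℚ ≤ K.fixingSubgroup) {ζ : Qb} (hζ : IsPrimitiveRoot ζ q)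
  [IsDiscreteValuationRing (OE A K)] [IsDiscreteValuationRing (OE A (cyclo K ζ))]
  (R : ℕ) [NeZero R] (hqR : ¬ q ∣ R)
  (u' : LE R K) (U : LaurentSeries (OE A K))
  (hU : (u' : LaurentSeries K) = GaussDVR.iota (OE A K) K U)

/-- The three vertical primes of the level-`R q²` chart ring. -/
abbrev PcE : Fin 3 → Ideal (HypE.B2 A K R u' (q := q)) :=
  ![HypE.PZero A hq hA K hK R hqR u' U hU, HypE.PInf A hq hA K hK R u' U hU,
    HypE.PMid A hq hA K hK hζ R hqR u' U hU]

/-- The two vertical primes of the level-`R q` chart ring. -/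
abbrev pcE : Fin 2 → Ideal (HypE.B1 A K R u' (q := q)) :=
  ![HypE.pZero A hq hA K hK R hqR u' U hU, HypE.pInf A hq hA K hK R u' U hU]

variable (hwu : IsIntegral (Algebra.adjoin (OE A K) {alphaHom R q K u'})
    (wHom R q K hq hqR (alphaHom R q K u')))
  [FiniteDimensional (IntermediateField.adjoin K {u'}) (LE R K)]
  (hprime : Prime (piC u' ((q : ℕ) : OE A K)))
  (hcop : IsCoprime (GaussDVR.rho (OE A K) U).order ((q : ℕ) : ℤ))
  (hord : (GaussDVR.rho (OE A K) U).order ≠ 0)
  (hθ : QFormal.theta (GaussDVR.rho (OE A K) U) ≠ 0)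
  (hfrob : qExpand (IsLocalRing.ResidueField (OE A K)) q (GaussDVR.rho (OE A K) U)
    = GaussDVR.rho (OE A K) U ^ q)
  -- the `InstA` block versions (level `q * q`)
  (hy : IsIntegral (Algebra.adjoin (OE A K) {alphaSq R q K u'}) (betaSq R q K u'))
  (hcop2 : IsCoprime (GaussDVR.rho (OE A K) U).order ((q * q : ℕ) : ℤ))
  (hfrob2 : qExpand (IsLocalRing.ResidueField (OE A K)) (q * q) (GaussDVR.rho (OE A K) U)
    = GaussDVR.rho (OE A K) U ^ (q * q))

set_option maxHeartbeats 8000000 in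
include hwu hprime hcop hord hθ hfrob hy hcop2 hfrob2 in
theorem holds_chart (ζ₀ : OE A K) (m : ℕ) (hqm : q.Coprime m) (hm0 : m ≠ 0)
    (huT : Transcendental K (alphaSq R q K u'))
    [FiniteDimensional (IntermediateField.adjoin K {alphaSq R q K u'}) (LE (R * q * q) K)]
    (hu1T : Transcendental K (alphaHom R q K u'))
    [FiniteDimensional (IntermediateField.adjoin K {alphaHom R q K u'}) (LE (R * q) K)]
    -- chart maps at infinity
    (hβinv : IsIntegral (Algebra.adjoin (OE A K) {(alphaSq R q K u')⁻¹})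
      (betaHom (R * q) q K (alphaHom R q K u'))⁻¹)
    (hαinv : IsIntegral (Algebra.adjoin (OE A K) {(betaHom (R * q) q K (alphaHom R q K u'))⁻¹})
      (alphaSq R q K u')⁻¹)
    -- the coordinate is in none of the vertical primes
    (hPc : ∀ i, Nodal.ChartTransfer.tZero (O := OE A K) (alphaSq R q K u') ∉ PcE A hq hA K hK hζ R hqR u' U hU i)
    (hpc : ∀ j, Nodal.ChartTransfer.tZero (O := OE A K) (alphaHom R q K u') ∉ pcE A hq hA K hK R hqR u' U hU j)
    -- level `R` special fibre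
    [hDed : IsDedekindDomain (Chart (OE A K) u' ⧸ Ideal.span {piC u' ((q : ℕ) : OE A K)})]
    (hKF : ∀ r : Chart (OE A K) u', ∃ s : Chart (OE A K) u',
      redM ((q : ℕ) : OE A K) (irreducible_q A hq hA K hK) (alphaSq R q K)
          (alphaSq_algebraMap R q K (O := OE A K)) (sigmaHom (R * q * q) K)
          (sigmaHom_algebraMap (R * q * q) K (O := OE A K))
          (sigmaHom_mem_fracField (R * q * q) K A) u' U (sigma_u A K R u' U hU) r ^ q =
        qExpand (IsLocalRing.ResidueField (OE A K)) q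
          (redM ((q : ℕ) : OE A K) (irreducible_q A hq hA K hK) (alphaSq R q K)
            (alphaSq_algebraMap R q K (O := OE A K)) (sigmaHom (R * q * q) K)
            (sigmaHom_algebraMap (R * q * q) K (O := OE A K))
            (sigmaHom_mem_fracField (R * q * q) K A) u' U (sigma_u A K R u' U hU) s))
    -- C1 at level `R q`
    (hgen0 : ∀ y : Ideal (HypE.B1 A K R u' (q := q)), y.IsMaximal →
      HypE.pZero A hq hA K hK R hqR u' U hU ≤ y →
      ∃ t, t ≠ 0 ∧ PrinAt y (HypE.pZero A hq hA K hK R hqR u' U hU) t)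
    (S : Finset (OE A K)) (hH : HorizUnram (E := K) S (alphaHom R q K u'))
    (hSfrob : ∀ c ∈ S, ∃ c' ∈ S,
      IsLocalRing.residue (OE A K) c' ^ q = IsLocalRing.residue (OE A K) c)
    (good : Ideal (HypE.B2 A K R u' (q := q)) → Prop)
    (hgood : ∀ M : Ideal (HypE.B2 A K R u' (q := q)), M.IsMaximal → good M →
      incl (alphaSq R q K) (alphaSq_algebraMap R q K (O := OE A K)) u' (polyChart u' X) ∉ M ∧
        ∀ c ∈ S, incl (alphaSq R q K) (alphaSq_algebraMap R q K (O := OE A K)) u'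
          (polyChart u' (X - C c)) ∉ M)
    -- cusps of the chart `u`
    (hcusp : ∀ y : Ideal (HypE.B2 A K R u' (q := q)), y.IsMaximal → ¬ good y → ∀ i : Fin 3,
      PcE A hq hA K hK hζ R hqR u' U hU i ≤ y →
      ∃ t' ∈ PcE A hq hA K hK hζ R hqR u' U hU i, ∀ x ∈ PcE A hq hA K hK hζ R hqR u' U hU i,
        ∃ s : HypE.B2 A K R u' (q := q), s ∉ y ∧ s * x ∈ Ideal.span {t'})
    -- the fibre at infinity
    (hinf : ∀ (P : Fin 3 → Ideal (Nodal.Overlap (OE A K) (alphaSq R q K u')))
      (p : Fin 2 → Ideal (Nodal.Overlap (OE A K) (alphaHom R q K u'))),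
      (∀ i, (P i).IsPrime) → (∀ j, (p j).IsPrime) →
      (∀ i, (P i).comap (Nodal.toOverlapZero (OE A K) (alphaSq R q K u')) =
        PcE A hq hA K hK hζ R hqR u' U hU i) →
      (∀ j, (p j).comap (Nodal.toOverlapZero (OE A K) (alphaHom R q K u')) =
        pcE A hq hA K hK R hqR u' U hU j) →
      (∀ M : Ideal (Nodal.Chart (OE A K) (alphaSq R q K u')⁻¹), M.IsMaximal →
        ChartInf.tInf (alphaSq R q K u') ∈ M → ∀ i j, i ≠ j →
        (P i).comap (Nodal.toOverlapInf (OE A K) (alphaSq R q K u')) ≤ M →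
        (P j).comap (Nodal.toOverlapInf (OE A K) (alphaSq R q K u')) ≤ M → False) ∧
      (∀ M : Ideal (Nodal.Chart (OE A K) (alphaSq R q K u')⁻¹), M.IsMaximal →
        ChartInf.tInf (alphaSq R q K u') ∈ M →
        (P 2).comap (Nodal.toOverlapInf (OE A K) (alphaSq R q K u')) ≤ M →
        ∃ δ ∈ (P 2).comap (Nodal.toOverlapInf (OE A K) (alphaSq R q K u')), δ ≠ 0 ∧
        ∃ a0 b0 A' E' : Nodal.Chart (OE A K) (alphaSq R q K u')⁻¹,
          a0 * piC (alphaSq R q K u')⁻¹ ((q : ℕ) : OE A K) =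
            b0 * δ ^ (q - 1) ∧
          b0 ∉ (P 2).comap (Nodal.toOverlapInf (OE A K) (alphaSq R q K u')) ∧
          a0 * A' - b0 * E' ∈ (P 2).comap (Nodal.toOverlapInf (OE A K) (alphaSq R q K u')) ∧ E' ∉ M) ∧
      (∀ M : Ideal (Nodal.Chart (OE A K) (alphaSq R q K u')⁻¹), M.IsMaximal →
        ChartInf.tInf (alphaSq R q K u') ∈ M → ∀ i,
        (P i).comap (Nodal.toOverlapInf (OE A K) (alphaSq R q K u')) ≤ M →
        ∃ θ ∈ M, ∀ y ∈ M, ∃ c, c ∉ M ∧
          c * y ∈ (P i).comap (Nodal.toOverlapInf (OE A K) (alphaSq R q K u')) ⊔ Ideal.span {θ})) :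
    Fermat.Agent.S36.KLevel.Holds ((q : ℕ) : OE A K) ζ₀ q m ((q + 1) * (q - 1) * q)
      (alphaSq R q K u') (alphaHom R q K u') (alphaHom R q K u')
      (NaE (R * q) q K) (NbE (R * q) q K) := by
  have hqL : q ∣ R * q := ⟨R, mul_comm _ _⟩
  have hq2 : ¬ q ^ 2 ∣ R * q := fun h =>
    hqR (by rw [sq] at h; exact (Nat.mul_dvd_mul_iff_right hq.pos).1 h)
  have hnormal : IsIntegrallyClosed
      (Chart (OE A K) u' ⧸ Ideal.span {piC u' ((q : ℕ) : OE A K)}) := inferInstance
  have hH' := HypE.hyp A hq hA K hK hζ R hqR u' U hU hwu hprime hcop hord hθ hfrob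
  have hded3 := RadE.dedekind A hq hA K hK hζ R hqR u' U hU hy hprime hcop2 hord hθ hfrob2
  refine Fermat.Agent.S36.KInst9.holds_of_chart (R * q) q K hq hqL hq2 ((q : ℕ) : OE A K) ζ₀
    (irreducible_q A hq hA K hK) m hqm hm0 dvd_rfl (alphaSq R q K u') huT (alphaHom R q K u') hu1T
    (PcE A hq hA K hK hζ R hqR u' U hU) (pcE A hq hA K hK R hqR u' U hU) hPc hpc
    (HypE.alphaC A K R u') (fun _ => rfl)
    (Fermat.Agent.S36.ECall.ObjInf.phiA1 A K R u')
    (Fermat.Agent.S36.ECall.ObjInf.coe_phiA1 A K R u')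
    (Fermat.Agent.S36.ECall.ObjInf.phiA1_isIntegral A K R u')
    (HypE.betaC A hq K R hqR u' hwu) (fun _ => rfl)
    (Fermat.Agent.S36.ECall.ObjInf.phiB1 A K R u' hβinv)
    (Fermat.Agent.S36.ECall.ObjInf.coe_phiB1 A K R u' hβinv)
    (Fermat.Agent.S36.ECall.ObjInf.phiB1_isIntegral A K R u' hβinv hαinv)
    (q - 1) hH' ?red ?hded ?hradα ?hradβ ?hmult good ?h0 ?h11 hcusp hinf
  case red =>
    exact Fermat.Agent.S36.ECall.Red.red_chart A hq hA K hK R hqR u' U hU hwu hprime hcop hord hfrob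
  case hded =>
    intro i
    fin_cases i
    · exact hded3.1
    · exact hded3.2.1
    · exact hded3.2.2
  case hradα =>
    exact RadE.rad_alpha A hq hA K hK hζ R hqR u' U hU hy hprime hcop2 hord hθ hfrob2 hwu
      hnormal hKF
  case hradβ =>
    exact RadE.rad_beta A hq hA K hK hζ R hqR u' U hU hy hprime hcop2 hord hθ hfrob2 hwu
      hnormal hKF
  case hmult =>
    exact HypMult.hmult A hq hA K hK hζ R hqR u' U hU hwu hprime hcop hord hθ hfrob
  case h0 =>
    intro y hy hg hP0 _ _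
    exact Fermat.Agent.S36.ECall.H0.h0_of_gen (HypE.alphaC A K R u') hH'.α_int _ _ hH'.α_p0_P0
      (fun _ => True) (fun y hy _ => hgen0 y hy) y hy trivial hP0
  case h11 =>
    exact Fermat.Agent.S36.EpsHypE.h11_good A hq hA K hK hζ R hqR u' U hU hwu hprime hcop hord hθ
      hfrob hu1T S hH hSfrob hnormal good hgood

end Fermat.Agent.S36.KInst4H.Harness
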