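import Mathlib
import Fermat.Agent.S36.KInst4H.Harness
import Fermat.Agent.S36.KInst
import Fermat.Agent.S36.SqChart.Rad4
import Fermat.Agent.S36.SqChart.NotMemE
import Fermat.Agent.S36.ECall.ObjInf4
import Fermat.Agent.S36.ECall.Cusp
import Fermat.Agent.S36.C1Inst4Alt
import Fermat.Agent.S36.A2.TopLevel4
import Fermat.Agent.S36.CuspInstEK
import Fermat.Agent.S36.ECall.Inf4
import Fermat.Agent.S36.SqChart.HypBridgeW
import Fermat.Agent.S36.KTop
import Fermat.Agent.S36.KBase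

/-!
S36 tail, `q` odd (helper218): the chart-prime assembly at `u₄`, every coordinate fact
discharged, `hinf` included, and the `KTop` wrapper: the first argument `hodd` of
`KTop.coreExit_of_levels`.
-/

set_option autoImplicit false
set_option linter.unusedSectionVars false
set_option linter.unusedVariables false
set_option linter.style.haveILetI false
set_option synthInstance.maxHeartbeats 400000
set_option maxHeartbeats 1000000

open ModularCurve Polynomial IntermediateField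

noncomputable section

namespace Fermat.Agent.S36.KInst4H

open Fermat.Agent.S30 Fermat.Agent.S30.CSide Fermat.Agent.S30.Model
open Fermat.Agent.S18.K1Defs Fermat.Agent.S18.K1Main
open Fermat.Agent.S34 Fermat.Agent.S34.TwoPrimesGauss Fermat.Agent.S34.TwoPrimesRank
open Fermat.Agent.S34.HauptU.Plug
open Fermat.Agent.S36 Fermat.Agent.S36.SqChart Fermat.Agent.S36.MultPrimesGauss
open Fermat.Agent.S36.CycloBase
open Fermat.Agent.S36.SqRankE Fermat.Agent.S36.SqChart.InstA Fermat.Agent.S36.Haupt4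
open Fermat.Agent.S36.PrinAt
open Fermat.Agent.S36.NormEPack (NaE NbE)
open Fermat.Agent.S36.KInst4H.Harness

local notation "Qb" => AlgebraicClosure ℚ
local notation "Gq" => (AlgebraicClosure ℚ ≃ₐ[ℚ] AlgebraicClosure ℚ)

attribute [local instance] InstA.algL InstA.towerL

section U4

variable (A : ValuationSubring Qb) {q : ℕ} (hq : q.Prime) [NeZero q] (hA : A.LiesOverPrime q)
  (K : IntermediateField ℚ Qb) [FiniteDimensional ℚ K]
  (hK : A.inertiaSubgroupIn ℚ ≤ K.fixingSubgroup) {ζ : Qb} (hζ : IsPrimitiveRoot ζ q)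
  [IsDiscreteValuationRing (OE A K)] [IsDiscreteValuationRing (OE A (cyclo K ζ))]
  (R : ℕ) [NeZero R] (hqR : ¬ q ∣ R) (hodd : q ≠ 2) (h4 : 4 ∣ R)
  (z : Qb) (hz : IsPrimitiveRoot z R) (hzK : z ∈ K)

/-- The coordinate of the level-`R q²` chart. -/
abbrev uC4 : HypE.B2 A K R (u4E R K h4) (q := q) :=
  incl (alphaSq R q K) (alphaSq_algebraMap R q K (O := OE A K)) (u4E R K h4)
    (polyChart (u4E R K h4) X)

set_option maxHeartbeats 16000000 in
include hq hA hK hζ hqR hodd hz hzK in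
theorem holds_u4 (hfrobK : ∃ φ : Gq, A.IsFrobeniusAt φ q ∧ StableBase.Stable K φ)
    (ζ₀ : OE A K) (m : ℕ) (hqm : q.Coprime m) (hm0 : m ≠ 0) :
    Fermat.Agent.S36.KLevel.Holds ((q : ℕ) : OE A K) ζ₀ q m ((q + 1) * (q - 1) * q)
      (alphaSq R q K (u4E R K h4)) (alphaHom R q K (u4E R K h4)) (alphaHom R q K (u4E R K h4))
      (NaE (R * q) q K) (NbE (R * q) q K) := by
  classical
  haveI := Coord4.finite_u4E R K h4
  haveI := Coord4.charP_ell K q hq A hA
  haveI : Fact q.Prime := ⟨hq⟩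
  have h2 := Coord4.isUnit_two K q hq hodd A hA
  haveI := Rad4.dedekind_base A hq hA K hK R hqR hodd h4 z hz hzK
  have hT : Transcendental K (u4E R K h4) := transcendental_u4E R K h4
  haveI := KInst.finite_u1 hq K R hqR (u4E R K h4)
  haveI := KInst.finite_u hq K R hqR (u4E R K h4)
  have hwu := Rad4.hwu4 A hq hA K R hqR hodd h4
  have hprime := Coord4.hprime_u4 R K q hq hodd A hA h4 hqR z hz hzK _ (irreducible_q A hq hA K hK)
  have hρ : GaussDVR.rho (OE A K) (u4 (OE A K)) ≠ 0 := by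
    intro h
    exact Coord4.hord_u4 (O := OE A K) (by rw [h]; exact HahnSeries.order_zero)
  have hH' := HypE.hyp A hq hA K hK hζ R hqR (u4E R K h4) (u4 (OE A K)) (Coord4.hU_u4 R K h4)
    hwu hprime (Coord4.hcop_u4 q) Coord4.hord_u4 Coord4.theta_rho_u4_ne_zero
    (Coord4.qExpand_rho_u4 q hq)
  refine holds_chart A hq hA K hK hζ R hqR (u4E R K h4) (u4 (OE A K)) (Coord4.hU_u4 R K h4)
    hwu hprime (Coord4.hcop_u4 q) Coord4.hord_u4 Coord4.theta_rho_u4_ne_zero
    (Coord4.qExpand_rho_u4 q hq) (Coord4.hy_u4 R K q h2 hq hodd hqR h4)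
    (Coord4.hcop_u4 (q * q)) (Coord4.qExpand_sq_rho_u4 q hq) ζ₀ m hqm hm0
    (KInst.transcendental_alphaHom (R * q) q K (KInst.transcendental_alphaHom R q K hT))
    (KInst.transcendental_alphaHom R q K hT)
    (Fermat.Agent.S36.ECall.ObjInf4.hbetaInv_u4 A hq hA hodd K R h4)
    (Fermat.Agent.S36.ECall.ObjInf4.halphaInv_u4 A hq hA hodd K R h4)
    (NotMemE.hPc A hq hA K hK hζ R hqR (u4E R K h4) (u4 (OE A K)) (Coord4.hU_u4 R K h4) hρ)
    (NotMemE.hpc A hq hA K hK R hqR (u4E R K h4) (u4 (OE A K)) (Coord4.hU_u4 R K h4) hρ)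
    (Rad4.hKF_u4 A hq hA K hK R h4 hfrobK)
    (Fermat.Agent.S36.C1Inst4Alt.gen_u4 A R q hq hodd hqR h4 hA K z hz hzK ((q : ℕ) : OE A K)
      (irreducible_q A hq hA K hK) 1 isUnit_one (mul_one _).symm).2
    ({0, -16} : Finset (OE A K))
    (Fermat.Agent.S36.A2.TopLevel4.horizUnram_alpha_u4E R q K h4 _ (by simp) (by simp))
    (Fermat.Agent.S36.A2.TopLevel4.frobStable_four q)
    (fun y => uC4 A K R h4 * (uC4 A K R h4 + 16) ∉ y) ?hgood ?hcusp ?hinf
  case hgood =>
    intro M hM hg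
    have hu : uC4 A K R h4 (q := q) ∉ M := fun h => hg (Ideal.mul_mem_right _ _ h)
    refine ⟨hu, fun c hc => ?_⟩
    simp only [Finset.mem_insert, Finset.mem_singleton] at hc
    rcases hc with rfl | rfl
    · rw [map_zero, sub_zero]
      exact hu
    · intro h
      apply hg
      have e : incl (alphaSq R q K) (alphaSq_algebraMap R q K (O := OE A K)) (u4E R K h4)
          (polyChart (u4E R K h4) (X - C (-16))) = uC4 A K R h4 (q := q) + 16 := by
        simp only [map_neg, map_ofNat, sub_neg_eq_add, map_add]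
      rw [← e]
      exact Ideal.mul_mem_left _ _ h
  case hcusp =>
    exact Fermat.Agent.S36.ECall.Cusp.hcusp4_Pc A hq hA K hK hζ R hqR (u4E R K h4) (u4 (OE A K))
      (Coord4.hU_u4 R K h4)
      (PcE A hq hA K hK hζ R hqR (u4E R K h4) (u4 (OE A K)) (Coord4.hU_u4 R K h4))
      (pcE A hq hA K hK R hqR (u4E R K h4) (u4 (OE A K)) (Coord4.hU_u4 R K h4))
      (HypE.alphaC A K R (u4E R K h4)) (fun _ => rfl)
      (HypE.betaC A hq K R hqR (u4E R K h4) hwu) (fun _ => rfl)
      hH' rfl rfl rfl rfl (jE R K) rfl (jE_mul_u4E R K h4 (jE R K) rfl) h2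
      (uC4 A K R h4) (by rw [coe_incl, coe_polyChart, aeval_X])

  case hinf =>
    intro P p hP hp hPeq hpeq
    haveI := hP
    have hh : Fermat.Agent.S36.CuspInstEK.HypB (O := OE A K) ((q : ℕ) : OE A K)
        (alphaHom R q K (u4E R K h4)) (alphaSq R q K (u4E R K h4)) P p
        (HypE.alphaC A K R (u4E R K h4)) (HypE.betaC A hq K R hqR (u4E R K h4) hwu) (q - 1) :=
      HypBridge.hyp_congr hH' rfl rfl (hpeq 1).symm (hpeq 0).symm (hPeq 1).symm (hPeq 0).symm
        (hPeq 2).symm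
    have hc := Fermat.Agent.S36.CuspInstEK.cusp_inf4 A hq hA K hK hζ R hqR (u4E R K h4)
      (u4 (OE A K)) (Coord4.hU_u4 R K h4)
      (KInst.transcendental_alphaHom (R * q) q K (KInst.transcendental_alphaHom R q K hT))
      P p (HypE.alphaC A K R (u4E R K h4)) (fun _ => rfl)
      (Fermat.Agent.S36.ECall.ObjInf.phiA1 A K R (u4E R K h4))
      (Fermat.Agent.S36.ECall.ObjInf.coe_phiA1 A K R (u4E R K h4))
      (HypE.betaC A hq K R hqR (u4E R K h4) hwu) (fun _ => rfl)
      (Fermat.Agent.S36.ECall.ObjInf.phiB1 A K R (u4E R K h4)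
        (Fermat.Agent.S36.ECall.ObjInf4.hbetaInv_u4 A hq hA hodd K R h4))
      (Fermat.Agent.S36.ECall.ObjInf.coe_phiB1 A K R (u4E R K h4)
        (Fermat.Agent.S36.ECall.ObjInf4.hbetaInv_u4 A hq hA hodd K R h4))
      hh
      ((hpeq 1).trans (HypBridgeW.pInf_eq A hq hA K hK R (u4E R K h4) (u4 (OE A K))
        (Coord4.hU_u4 R K h4)))
      ((hpeq 0).trans (HypBridgeW.pZero_eq A hq hA K hK R hqR (u4E R K h4) (u4 (OE A K))
        (Coord4.hU_u4 R K h4)))
      ((hPeq 2).trans (HypBridgeW.PMid_eq A hq hA K hK hζ R hqR (u4E R K h4) (u4 (OE A K))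
        (Coord4.hU_u4 R K h4)))
      (jE_mul_u4E R K h4 (E2Deg.jE R K) (E2Deg.coe_jE R K))
    exact ⟨hc.1, hc.2,
      Fermat.Agent.S36.ECall.Inf4.hreg_u4_of_comap A hq hA hodd K hK hζ R hqR h4 z hz hzK
        (PcE A hq hA K hK hζ R hqR (u4E R K h4) (u4 (OE A K)) (Coord4.hU_u4 R K h4)) rfl rfl rfl
        P hPeq⟩

end U4

/-- **`hodd` of `KTop.coreExit_of_levels`**. -/
theorem hodd : ∀ (q p R : ℕ) [NeZero q] [NeZero R], q.Prime → q ≠ 2 → p.Prime → q ≠ p →
    ¬ q ∣ R → 4 ∣ R → Fermat.Agent.S36.CoreOfK.ModKAt q p (R * q) := by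
  intro q p R _ _ hq hodd hp hqp hqR h4
  refine Fermat.Agent.S36.KTop.modKAt_of_forall_place q p R hq hp hqp (fun A hA =>
    ⟨R, ∅, (q + 1) * (q - 1) * q, hqR, by simp, ?_, fun n K hG => ?_⟩)
  · have h2 := hq.two_le
    exact Nat.mul_ne_zero (Nat.mul_ne_zero (by omega) (by omega)) (by omega)
  · have hqN : ¬ q ∣ R * p ^ n := Fermat.Agent.S36.KTop.not_dvd_mul_pow hq hp hqp hqR n
    have hP := Fermat.Agent.S36.KBase.pack hG hq hA hqN
    haveI := hP.fin
    haveI := hP.dvr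
    obtain ⟨z, hz, hzK⟩ := hP.root R (Dvd.intro _ rfl)
    obtain ⟨ζq, hζq⟩ := Fermat.Agent.S36.KBase.exists_zeta_q hq
    haveI := hP.cycloDvr ζq
    intro ζ hζ hζL
    have hT : Transcendental K (u4E R K h4) := transcendental_u4E R K h4
    haveI := Coord4.finite_u4E R K h4
    have hcop : q.Coprime (p ^ n) := Nat.Coprime.pow_right n ((Nat.coprime_primes hq hp).mpr hqp)
    have hm0 : p ^ n ≠ 0 := pow_ne_zero n hp.ne_zero
    have hu1T := KInst.transcendental_alphaHom R q K hT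
    refine ⟨alphaSq R q K (u4E R K h4), alphaHom R q K (u4E R K h4),
      KInst.transcendental_alphaHom (R * q) q K hu1T,
      KInst.finite_u hq K R hqR (u4E R K h4), KInst.finite_u1 hq K R hqR (u4E R K h4),
      Or.inl ⟨fun h0 => hu1T (h0 ▸ isAlgebraic_zero), ?_⟩⟩
    exact holds_u4 A hq hA K hP.hK hζq R hqR hodd h4 z hz hzK hP.frob ζ (p ^ n) hcop hm0

end Fermat.Agent.S36.KInst4H
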